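/-
helper92 — S29 piece P2(a): Burnside's theorem on matrix algebras.

`burnside` : over an algebraically closed field `k`, a subalgebra `A` of `End k V`
(`V` finite-dimensional) with no non-trivial invariant subspace is all of `End k V`.

Proof (Lomonosov–Rosenthal): an element of `A` of minimal positive rank has rank one;
then all rank-one maps lie in `A`; rank-one maps span `End k V`.
Mathlib-only.
-/
import Mathlib

set_option autoImplicit false

namespace Fermat.Agent.S29.H92

open Module

variable {k : Type*} [Field k] {V : Type*} [AddCommGroup V] [Module k V]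

/-- A subalgebra of `End k V` is irreducible if it has no non-trivial invariant subspace. -/
def IrredSubalg (A : Subalgebra k (Module.End k V)) : Prop :=
  ∀ W : Submodule k V, (∀ x ∈ A, ∀ w ∈ W, x w ∈ W) → W = ⊥ ∨ W = ⊤

/-- Transitivity: an irreducible subalgebra moves any nonzero vector to any vector. -/
theorem IrredSubalg.exists_apply_eq {A : Subalgebra k (Module.End k V)} (hA : IrredSubalg A)
    {v : V} (hv : v ≠ 0) (u : V) : ∃ S ∈ A, S v = u := by
  classical
  let W : Submodule k V := (Subalgebra.toSubmodule A).map (LinearMap.applyₗ v)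
  have hW : ∀ x ∈ A, ∀ w ∈ W, x w ∈ W := by
    rintro x hx w ⟨S, hS, rfl⟩
    exact ⟨x * S, A.mul_mem hx hS, rfl⟩
  have hvW : v ∈ W := ⟨1, A.one_mem, rfl⟩
  rcases hA W hW with h | h
  · exact absurd ((Submodule.mem_bot k).1 (h ▸ hvW)) hv
  · have hu : u ∈ W := h ▸ Submodule.mem_top
    obtain ⟨S, hS, rfl⟩ := hu
    exact ⟨S, hS, rfl⟩

/-- Rank reduction step: a nonzero element of an irreducible subalgebra (over an algebraically
closed field) whose rank is at least two can be replaced by a nonzero one of smaller rank. -/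
theorem IrredSubalg.exists_smaller_rank [IsAlgClosed k] [FiniteDimensional k V]
    {A : Subalgebra k (Module.End k V)} (hA : IrredSubalg A)
    {T : Module.End k V} (hT : T ∈ A) (hrk : 2 ≤ finrank k (LinearMap.range T)) :
    ∃ T' ∈ A, T' ≠ 0 ∧ finrank k (LinearMap.range T') < finrank k (LinearMap.range T) := by
  classical
  -- a vector x1 with T x1 ≠ 0
  have hT0 : T ≠ 0 := by
    rintro rfl
    have : LinearMap.range (0 : Module.End k V) = ⊥ := LinearMap.range_zero
    rw [this, finrank_bot] at hrk
    omega
  obtain ⟨x1, hx1⟩ : ∃ x1, T x1 ≠ 0 := by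
    by_contra h
    exact hT0 (LinearMap.ext fun x => not_not.1 fun hx => h ⟨x, hx⟩)
  -- a vector x2 with T x2 ∉ span {T x1}
  obtain ⟨x2, hx2⟩ : ∃ x2, T x2 ∉ Submodule.span k {T x1} := by
    by_contra h
    have hle : LinearMap.range T ≤ Submodule.span k {T x1} := by
      rintro _ ⟨x, rfl⟩
      exact not_not.1 fun hx => h ⟨x, hx⟩
    have h1 := Submodule.finrank_mono hle
    rw [finrank_span_singleton hx1] at h1
    omega
  obtain ⟨S, hS, hSx⟩ := hA.exists_apply_eq hx1 x2
  -- the restriction of T * S to range T
  have hstab : ∀ y ∈ LinearMap.range T, (T * S) y ∈ LinearMap.range T := fun y _ => ⟨S y, rfl⟩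
  let φ : Module.End k (LinearMap.range T) := (T * S).restrict hstab
  have : Nontrivial (LinearMap.range T) :=
    ⟨⟨⟨T x1, ⟨x1, rfl⟩⟩, 0, fun h => hx1 (congrArg Subtype.val h)⟩⟩
  obtain ⟨c, hc⟩ := Module.End.exists_eigenvalue φ
  obtain ⟨w, hw⟩ := hc.exists_hasEigenvector
  have hw0 : (w : V) ≠ 0 := fun h => hw.2 (Subtype.ext h)
  have hwc : (T * S) (w : V) = c • (w : V) := by
    have := hw.apply_eq_smul
    have h2 := congrArg Subtype.val this
    simpa [φ] using h2
  refine ⟨(T * S - c • 1) * T, A.mul_mem (A.sub_mem (A.mul_mem hT hS)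
    (A.smul_mem A.one_mem c)) hT, ?_, ?_⟩
  · intro h0
    have h1 : ((T * S - c • 1) * T) x1 = 0 := by rw [h0]; rfl
    have h2 : T x2 = c • T x1 := by
      have : ((T * S - c • 1) * T) x1 = T x2 - c • T x1 := by
        simp [Module.End.mul_apply, hSx]
      rw [this, sub_eq_zero] at h1
      exact h1
    exact hx2 (h2 ▸ Submodule.smul_mem _ c (Submodule.subset_span rfl))
  · -- rank drops
    let ψ : Module.End k V := T * S - c • 1
    have hrange : LinearMap.range (ψ * T) = LinearMap.range (ψ.domRestrict (LinearMap.range T)) := by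
      ext y
      constructor
      · rintro ⟨x, rfl⟩
        exact ⟨⟨T x, ⟨x, rfl⟩⟩, rfl⟩
      · rintro ⟨⟨_, ⟨x, rfl⟩⟩, rfl⟩
        exact ⟨x, rfl⟩
    have hker : LinearMap.ker (ψ.domRestrict (LinearMap.range T)) ≠ ⊥ := by
      intro h
      have hmem : w ∈ LinearMap.ker (ψ.domRestrict (LinearMap.range T)) := by
        rw [LinearMap.mem_ker]
        show ψ (w : V) = 0
        simp only [ψ, LinearMap.sub_apply, LinearMap.smul_apply, Module.End.one_apply]
        rw [hwc, sub_self]
      rw [h, Submodule.mem_bot] at hmem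
      exact hw.2 hmem
    have hpos : 0 < finrank k (LinearMap.ker (ψ.domRestrict (LinearMap.range T))) := by
      rcases Nat.eq_zero_or_pos (finrank k (LinearMap.ker (ψ.domRestrict (LinearMap.range T))))
        with h | h
      · exact absurd (Submodule.finrank_eq_zero.1 h) hker
      · exact h
    have hsum := LinearMap.finrank_range_add_finrank_ker (ψ.domRestrict (LinearMap.range T))
    show finrank k (LinearMap.range (ψ * T)) < _
    rw [hrange]
    omega


/-- An irreducible subalgebra on a nontrivial space contains an element of rank exactly one. -/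
theorem IrredSubalg.exists_rank_one [IsAlgClosed k] [FiniteDimensional k V] [Nontrivial V]
    {A : Subalgebra k (Module.End k V)} (hA : IrredSubalg A) :
    ∃ T ∈ A, finrank k (LinearMap.range T) = 1 := by
  classical
  -- strong induction on the rank
  have key : ∀ n : ℕ, ∀ T ∈ A, T ≠ 0 → finrank k (LinearMap.range T) = n →
      ∃ T' ∈ A, finrank k (LinearMap.range T') = 1 := by
    intro n
    induction n using Nat.strong_induction_on with
    | _ n ih =>
      intro T hT hT0 hn
      rcases Nat.lt_or_ge (finrank k (LinearMap.range T)) 2 with h2 | h2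
      · -- rank is 0 or 1; rank 0 is impossible
        have hne : LinearMap.range T ≠ ⊥ := by
          intro h
          exact hT0 (LinearMap.range_eq_bot.1 h)
        have hpos : finrank k (LinearMap.range T) ≠ 0 := fun h =>
          hne (Submodule.finrank_eq_zero.1 h)
        exact ⟨T, hT, by omega⟩
      · obtain ⟨T', hT', hT'0, hlt⟩ := hA.exists_smaller_rank hT h2
        exact ih _ (hn ▸ hlt) T' hT' hT'0 rfl
  have h1 : (1 : Module.End k V) ≠ 0 := by
    intro h
    obtain ⟨x, hx⟩ := exists_ne (0 : V)
    have : (1 : Module.End k V) x = 0 := by rw [h]; rfl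
    exact hx this
  exact key _ 1 A.one_mem h1 rfl

/-- A rank-one endomorphism is of the form `x ↦ f x • v`. -/
theorem exists_smulRight_of_finrank_range_eq_one [FiniteDimensional k V]
    {T : Module.End k V} (hT : finrank k (LinearMap.range T) = 1) :
    ∃ (v : V) (f : V →ₗ[k] k), v ≠ 0 ∧ f ≠ 0 ∧ T = f.smulRight v := by
  classical
  obtain ⟨⟨v, hvR⟩, hv0, hv⟩ := finrank_eq_one_iff'.1 hT
  have hv0' : v ≠ 0 := fun h => hv0 (Subtype.ext h)
  obtain ⟨φ, hφ⟩ : ∃ φ : Module.Dual k V, φ v ≠ 0 := by
    by_contra h
    exact hv0' ((Module.forall_dual_apply_eq_zero_iff k v).1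
      fun φ => not_not.1 fun hφ => h ⟨φ, hφ⟩)
  have hrep : ∀ x, ∃ c : k, T x = c • v := by
    intro x
    obtain ⟨c, hc⟩ := hv ⟨T x, ⟨x, rfl⟩⟩
    exact ⟨c, (congrArg Subtype.val hc).symm⟩
  let f : V →ₗ[k] k := (φ v)⁻¹ • (φ.comp T)
  have hf : ∀ x, T x = f x • v := by
    intro x
    obtain ⟨c, hc⟩ := hrep x
    have : f x = c := by
      simp only [f, LinearMap.smul_apply, LinearMap.comp_apply, hc, map_smul, smul_eq_mul]
      field_simp
    rw [this, hc]
  refine ⟨v, f, hv0', ?_, LinearMap.ext fun x => by rw [hf x]; rfl⟩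
  intro hf0
  obtain ⟨x, hx⟩ := hvR
  have : v = 0 := by
    rw [← hx, hf x, hf0]
    simp
  exact hv0' this

/-- An irreducible subalgebra (over an algebraically closed field) contains every rank-one map. -/
theorem IrredSubalg.smulRight_mem [IsAlgClosed k] [FiniteDimensional k V]
    {A : Subalgebra k (Module.End k V)} (hA : IrredSubalg A) (h : V →ₗ[k] k) (u : V) :
    h.smulRight u ∈ A := by
  classical
  rcases subsingleton_or_nontrivial V with hV | hV
  · have : h.smulRight u = 1 := LinearMap.ext fun x => Subsingleton.elim _ _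
    rw [this]
    exact A.one_mem
  obtain ⟨T, hTA, hT1⟩ := hA.exists_rank_one
  obtain ⟨v, f, hv0, hf0, rfl⟩ := exists_smulRight_of_finrank_range_eq_one hT1
  -- the space of functionals `f ∘ S`, `S ∈ A`
  let F : Submodule k (Module.Dual k V) :=
    (Subalgebra.toSubmodule A).map (LinearMap.compRight k f)
  have hF : F = ⊤ := by
    have hco : F.dualCoannihilator = ⊥ := by
      have hstab : ∀ x ∈ A, ∀ w ∈ F.dualCoannihilator, x w ∈ F.dualCoannihilator := by
        intro x hx w hw
        rw [Submodule.mem_dualCoannihilator] at hw ⊢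
        rintro _ ⟨S, hS, rfl⟩
        have := hw (LinearMap.compRight k f (S * x)) ⟨S * x, A.mul_mem hS hx, rfl⟩
        simpa using this
      rcases hA _ hstab with h0 | h0
      · exact h0
      · exfalso
        apply hf0
        ext x
        have hx : x ∈ F.dualCoannihilator := h0 ▸ Submodule.mem_top
        rw [Submodule.mem_dualCoannihilator] at hx
        have := hx (LinearMap.compRight k f 1) ⟨1, A.one_mem, rfl⟩
        simpa using this
    have := Subspace.dualCoannihilator_dualAnnihilator_eq (W := F)
    rw [hco, Submodule.dualAnnihilator_bot] at this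
    exact this.symm
  obtain ⟨S2, hS2, hS2h⟩ : h ∈ F := hF ▸ Submodule.mem_top
  obtain ⟨S1, hS1, hS1u⟩ := hA.exists_apply_eq hv0 u
  have : h.smulRight u = S1 * f.smulRight v * S2 := by
    ext x
    have hx : h x = f (S2 x) := by
      rw [← hS2h]; rfl
    simp [Module.End.mul_apply, LinearMap.smulRight_apply, hx, hS1u]
  rw [this]
  exact A.mul_mem (A.mul_mem hS1 hTA) hS2

/-- **Burnside's theorem.** Over an algebraically closed field, a subalgebra of `End k V`
(`V` finite-dimensional) without non-trivial invariant subspaces is the whole of `End k V`. -/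
theorem burnside [IsAlgClosed k] [FiniteDimensional k V]
    {A : Subalgebra k (Module.End k V)} (hA : IrredSubalg A) : A = ⊤ := by
  classical
  refine eq_top_iff.2 fun X _ => ?_
  let b := Module.finBasis k V
  have hX : X = ∑ i, (b.coord i).smulRight (X (b i)) := by
    apply b.ext
    intro j
    rw [LinearMap.sum_apply]
    simp only [LinearMap.smulRight_apply, Module.Basis.coord_apply, Module.Basis.repr_self]
    rw [Finset.sum_eq_single j]
    · simp
    · intro i _ hij
      simp [hij.symm]
    · intro hj
      exact absurd (Finset.mem_univ j) hj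
  rw [hX]
  exact A.sum_mem fun i _ => hA.smulRight_mem _ _

end Fermat.Agent.S29.H92
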