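/-
helper92 — S29 piece P2(b): the dimension lemma.

Setting: `ρ : G →* End k V`, `a d : G → k`, `d` multiplicative and nowhere zero,
`ρ g ^ 2 - a g • ρ g + d g • 1 = 0` for all `g`.

* `quad_anticomm`     : ρ g ρ h + ρ h ρ g = a h ρ g + a g ρ h + (a (g h) - a g a h)
* `quad_of_mem_span`  : every `x` in the `k`-span of `ρ G` satisfies `x ^ 2 = t x + s`
* `finrank_le_two_of_quadratic` : `V` simple, `k` algebraically closed ⟹ `dim V ≤ 2`
* `charpoly_eq_of_quadratic_of_not_scalar` : in dimension 2 a non-scalar root of a monic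
  quadratic has that quadratic as characteristic polynomial.
Mathlib-only.
-/
import Fermat.Agent.S29.H92.Burnside

set_option autoImplicit false

namespace Fermat.Agent.S29.H92

open Module Polynomial

section Algebra

variable {k : Type*} [Field k] {E : Type*} [Ring E] [Algebra k E]
variable {G : Type*} [Monoid G]

/-- The anticommutator identity forced by quadratic relations with multiplicative "norm". -/
theorem quad_anticomm (ρ : G →* E) (a d : G → k)
    (hd : ∀ g h, d (g * h) = d g * d h) (hd0 : ∀ g, d g ≠ 0)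
    (hq : ∀ g, ρ g * ρ g - a g • ρ g + d g • (1 : E) = 0) (g h : G) :
    ρ g * ρ h + ρ h * ρ g =
      a h • ρ g + a g • ρ h + (a (g * h) - a g * a h) • (1 : E) := by
  set x := ρ g with hx
  set y := ρ h with hy
  set z := ρ (g * h) with hz
  have hzxy : z = x * y := by rw [hz, map_mul]
  -- "conjugates"
  have hsq : ∀ u : G, ρ u * ρ u = a u • ρ u - d u • (1 : E) := by
    intro u
    have := hq u
    rw [sub_add, sub_eq_zero] at this
    exact this
  have hxx : x * (a g • (1 : E) - x) = d g • (1 : E) := by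
    rw [mul_sub, mul_smul_comm, mul_one, hx, hsq, sub_sub_cancel]
  have hyy : y * (a h • (1 : E) - y) = d h • (1 : E) := by
    rw [mul_sub, mul_smul_comm, mul_one, hy, hsq, sub_sub_cancel]
  have hzz : (a (g * h) • (1 : E) - z) * z = d (g * h) • (1 : E) := by
    rw [sub_mul, smul_mul_assoc, one_mul, hz, hsq, sub_sub_cancel]
  set w := (a h • (1 : E) - y) * (a g • (1 : E) - x) with hw
  have hzw : z * w = d (g * h) • (1 : E) := by
    rw [hzxy, hw]
    calc x * y * ((a h • (1 : E) - y) * (a g • (1 : E) - x))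
        = x * (y * (a h • (1 : E) - y)) * (a g • (1 : E) - x) := by
          simp only [mul_assoc]
      _ = d h • (x * (a g • (1 : E) - x)) := by
          rw [hyy, mul_smul_comm, mul_one, smul_mul_assoc]
      _ = d (g * h) • (1 : E) := by
          rw [hxx, smul_smul, hd, mul_comm]
  have hkey : a (g * h) • (1 : E) - z = w := by
    have h1 : (a (g * h) • (1 : E) - z) * (z * w) = d (g * h) • (a (g * h) • (1 : E) - z) := by
      rw [hzw, mul_smul_comm, mul_one]
    have h2 : (a (g * h) • (1 : E) - z) * (z * w) = d (g * h) • w := by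
      rw [← mul_assoc, hzz, smul_mul_assoc, one_mul]
    have h3 : d (g * h) • (a (g * h) • (1 : E) - z) = d (g * h) • w := h1.symm.trans h2
    have := congrArg (fun e => (d (g * h))⁻¹ • e) h3
    simpa [smul_smul, inv_mul_cancel₀ (hd0 (g * h))] using this
  -- expand
  have hexp : w = (a h * a g) • (1 : E) - a h • x - a g • y + y * x := by
    rw [hw]
    simp only [sub_mul, mul_sub, smul_mul_assoc, mul_smul_comm, one_mul, mul_one, smul_smul,
      smul_sub]
    rw [mul_comm (a g) (a h)]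
    abel
  rw [hexp, hzxy] at hkey
  have : x * y + y * x = a h • x + a g • y + (a (g * h) • (1 : E) - (a h * a g) • (1 : E)) := by
    have h4 := hkey
    rw [sub_eq_iff_eq_add] at h4
    -- h4 : a (g*h) • 1 = (...) + x * y
    have h5 : x * y + y * x
        = a (g * h) • (1 : E) - ((a h * a g) • (1 : E) - a h • x - a g • y) := by
      rw [h4]; abel
    rw [h5]; abel
  rw [this, sub_smul, mul_comm (a g) (a h)]

/-- The graph of `a` over `ρ`, spanned linearly. -/
def quadSpan (ρ : G →* E) (a : G → k) : Submodule k (E × k) :=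
  Submodule.span k (Set.range fun g => (ρ g, a g))

theorem quad_anticomm_span (ρ : G →* E) (a d : G → k)
    (hd : ∀ g h, d (g * h) = d g * d h) (hd0 : ∀ g, d g ≠ 0)
    (hq : ∀ g, ρ g * ρ g - a g • ρ g + d g • (1 : E) = 0)
    {p q : E × k} (hp : p ∈ quadSpan ρ a) (hq' : q ∈ quadSpan ρ a) :
    ∃ c : k, p.1 * q.1 + q.1 * p.1 = q.2 • p.1 + p.2 • q.1 + c • (1 : E) := by
  induction hp, hq' using Submodule.span_induction₂ with
  | mem_mem x y hx hy =>
    obtain ⟨g, rfl⟩ := hx
    obtain ⟨h, rfl⟩ := hy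
    exact ⟨_, quad_anticomm ρ a d hd hd0 hq g h⟩
  | zero_left y hy => exact ⟨0, by simp⟩
  | zero_right x hx => exact ⟨0, by simp⟩
  | add_left x y z hx hy hz h1 h2 =>
    obtain ⟨c1, h1⟩ := h1
    obtain ⟨c2, h2⟩ := h2
    refine ⟨c1 + c2, ?_⟩
    simp only [Prod.fst_add, Prod.snd_add, add_mul, mul_add, smul_add, add_smul]
    rw [show x.1 * z.1 + y.1 * z.1 + (z.1 * x.1 + z.1 * y.1)
      = (x.1 * z.1 + z.1 * x.1) + (y.1 * z.1 + z.1 * y.1) by abel, h1, h2]
    abel
  | add_right x y z hx hy hz h1 h2 =>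
    obtain ⟨c1, h1⟩ := h1
    obtain ⟨c2, h2⟩ := h2
    refine ⟨c1 + c2, ?_⟩
    simp only [Prod.fst_add, Prod.snd_add, add_mul, mul_add, smul_add, add_smul]
    rw [show x.1 * y.1 + x.1 * z.1 + (y.1 * x.1 + z.1 * x.1)
      = (x.1 * y.1 + y.1 * x.1) + (x.1 * z.1 + z.1 * x.1) by abel, h1, h2]
    abel
  | smul_left r x y hx hy h1 =>
    obtain ⟨c1, h1⟩ := h1
    refine ⟨r * c1, ?_⟩
    simp only [Prod.smul_fst, Prod.smul_snd, smul_mul_assoc, mul_smul_comm, smul_eq_mul]
    rw [← smul_add, h1]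
    simp only [smul_add, smul_smul, mul_comm]
  | smul_right r x y hx hy h1 =>
    obtain ⟨c1, h1⟩ := h1
    refine ⟨r * c1, ?_⟩
    simp only [Prod.smul_fst, Prod.smul_snd, smul_mul_assoc, mul_smul_comm, smul_eq_mul]
    rw [← smul_add, h1]
    simp only [smul_add, smul_smul, mul_comm]

theorem quad_of_mem_quadSpan (ρ : G →* E) (a d : G → k)
    (hd : ∀ g h, d (g * h) = d g * d h) (hd0 : ∀ g, d g ≠ 0)
    (hq : ∀ g, ρ g * ρ g - a g • ρ g + d g • (1 : E) = 0)
    {p : E × k} (hp : p ∈ quadSpan ρ a) :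
    ∃ s : k, p.1 * p.1 = p.2 • p.1 + s • (1 : E) := by
  have hmain : ∀ p ∈ quadSpan ρ a, p ∈ quadSpan ρ a ∧
      ∃ s : k, p.1 * p.1 = p.2 • p.1 + s • (1 : E) := by
    intro p hp
    induction hp using Submodule.span_induction with
    | mem x hx =>
      refine ⟨Submodule.subset_span hx, ?_⟩
      obtain ⟨g, rfl⟩ := hx
      refine ⟨- d g, ?_⟩
      have := hq g
      rw [sub_add, sub_eq_zero] at this
      simp only
      rw [neg_smul, ← sub_eq_add_neg]
      exact this
    | zero => exact ⟨Submodule.zero_mem _, 0, by simp⟩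
    | add x y _ _ h1 h2 =>
      obtain ⟨hx, s1, h1⟩ := h1
      obtain ⟨hy, s2, h2⟩ := h2
      obtain ⟨c, hc⟩ := quad_anticomm_span ρ a d hd hd0 hq hx hy
      refine ⟨Submodule.add_mem _ hx hy, s1 + s2 + c, ?_⟩
      simp only [Prod.fst_add, Prod.snd_add, add_mul, mul_add, smul_add, add_smul]
      rw [show x.1 * x.1 + y.1 * x.1 + (x.1 * y.1 + y.1 * y.1)
        = x.1 * x.1 + y.1 * y.1 + (x.1 * y.1 + y.1 * x.1) by abel, h1, h2, hc]
      abel
    | smul r x _ h1 =>
      obtain ⟨hx, s1, h1⟩ := h1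
      refine ⟨Submodule.smul_mem _ r hx, r * r * s1, ?_⟩
      simp only [Prod.smul_fst, Prod.smul_snd, smul_mul_assoc, mul_smul_comm, smul_eq_mul]
      rw [h1]
      simp only [smul_add, smul_smul, mul_comm, mul_left_comm]
  exact (hmain p hp).2

/-- Every element of the linear span of `ρ G` satisfies a monic quadratic equation. -/
theorem quad_of_mem_span (ρ : G →* E) (a d : G → k)
    (hd : ∀ g h, d (g * h) = d g * d h) (hd0 : ∀ g, d g ≠ 0)
    (hq : ∀ g, ρ g * ρ g - a g • ρ g + d g • (1 : E) = 0)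
    {x : E} (hx : x ∈ Submodule.span k (Set.range ρ)) :
    ∃ t s : k, x * x = t • x + s • (1 : E) := by
  have : ∃ t : k, (x, t) ∈ quadSpan ρ a := by
    induction hx using Submodule.span_induction with
    | mem x hx =>
      obtain ⟨g, rfl⟩ := hx
      exact ⟨a g, Submodule.subset_span ⟨g, rfl⟩⟩
    | zero => exact ⟨0, Submodule.zero_mem _⟩
    | add x y _ _ h1 h2 =>
      obtain ⟨t1, h1⟩ := h1
      obtain ⟨t2, h2⟩ := h2
      exact ⟨t1 + t2, Submodule.add_mem _ h1 h2⟩
    | smul r x _ h1 =>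
      obtain ⟨t1, h1⟩ := h1
      exact ⟨r * t1, Submodule.smul_mem _ r h1⟩
  obtain ⟨t, ht⟩ := this
  obtain ⟨s, hs⟩ := quad_of_mem_quadSpan ρ a d hd hd0 hq ht
  exact ⟨t, s, hs⟩

end Algebra

end Fermat.Agent.S29.H92
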