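/-
helper92 — S29 piece P2(b), continued: dimension lemma and characteristic polynomials.

* `IrredRep ρ`                    : no non-trivial `ρ G`-stable subspace
* `IrredRep.span_range_eq_top`    : Burnside for representations
* `finrank_le_two_of_quadratic`   : quadratic relations (with multiplicative, nonvanishing
                                     constant term) on a simple module force `dim ≤ 2`
* `charpoly_eq_of_quadratic_of_not_scalar`
Mathlib-only.
-/
import Fermat.Agent.S29.H92.Quadratic

set_option autoImplicit false

namespace Fermat.Agent.S29.H92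

open Module Polynomial

variable {k : Type*} [Field k] {V : Type*} [AddCommGroup V] [Module k V]
variable {G : Type*} [Monoid G]

/-- A representation (as a monoid hom to `End k V`) with no non-trivial stable subspace. -/
def IrredRep (ρ : G →* Module.End k V) : Prop :=
  ∀ W : Submodule k V, (∀ g, ∀ w ∈ W, ρ g w ∈ W) → W = ⊥ ∨ W = ⊤

theorem IrredRep.span_range_eq_top [IsAlgClosed k] [FiniteDimensional k V]
    {ρ : G →* Module.End k V} (h : IrredRep ρ) :
    Submodule.span k (Set.range ρ) = ⊤ := by
  have hA : IrredSubalg (Algebra.adjoin k (Set.range ρ)) := fun W hW =>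
    h W fun g w hw => hW (ρ g) (Algebra.subset_adjoin ⟨g, rfl⟩) w hw
  have hb := burnside hA
  have h1 := Algebra.adjoin_eq_span (R := k) (s := Set.range ρ)
  rw [hb] at h1
  have h2 : ((Submonoid.closure (Set.range ρ) : Submonoid (Module.End k V)) : Set _)
      = Set.range ρ := by
    rw [← MonoidHom.coe_mrange, Submonoid.closure_eq]
  rw [h2] at h1
  rw [← h1]
  rfl

/-- **Dimension lemma.** If every `ρ g` satisfies `X² - a(g) X + d(g)` with `d` multiplicative
and nowhere zero, and `V` is simple over an algebraically closed field, then `dim V ≤ 2`. -/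
theorem finrank_le_two_of_quadratic [IsAlgClosed k] [FiniteDimensional k V]
    {ρ : G →* Module.End k V} (h : IrredRep ρ) (a d : G → k)
    (hd : ∀ g h, d (g * h) = d g * d h) (hd0 : ∀ g, d g ≠ 0)
    (hq : ∀ g, ρ g * ρ g - a g • ρ g + d g • (1 : Module.End k V) = 0) :
    finrank k V ≤ 2 := by
  classical
  by_contra hlt
  have h3 : 3 ≤ finrank k V := by omega
  let b := Module.finBasis k V
  let i0 : Fin (finrank k V) := ⟨0, by omega⟩
  let i1 : Fin (finrank k V) := ⟨1, by omega⟩
  let i2 : Fin (finrank k V) := ⟨2, by omega⟩
  have h01 : i0 ≠ i1 := by simp [i0, i1, Fin.ext_iff]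
  have h02 : i0 ≠ i2 := by simp [i0, i2, Fin.ext_iff]
  have h12 : i1 ≠ i2 := by simp [i1, i2, Fin.ext_iff]
  let X : Module.End k V :=
    b.constr k (fun i => if i = i1 then b i0 else if i = i2 then b i1 else 0)
  have hX1 : X (b i1) = b i0 := by
    show b.constr k _ (b i1) = _
    rw [Module.Basis.constr_basis, if_pos rfl]
  have hX2 : X (b i2) = b i1 := by
    show b.constr k _ (b i2) = _
    rw [Module.Basis.constr_basis, if_neg h12.symm, if_pos rfl]
  have hXmem : X ∈ Submodule.span k (Set.range ρ) := by
    rw [h.span_range_eq_top]; exact Submodule.mem_top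
  obtain ⟨t, s, hts⟩ := quad_of_mem_span ρ a d hd hd0 hq hXmem
  have happ := congrArg (fun f : Module.End k V => b.repr (f (b i2)) i0) hts
  simp only [Module.End.mul_apply, hX2, hX1, LinearMap.add_apply, LinearMap.smul_apply,
    Module.End.one_apply, map_add, map_smul, Module.Basis.repr_self, Finsupp.add_apply,
    Finsupp.smul_apply, Finsupp.single_apply, smul_eq_mul] at happ
  simp [h01.symm, h02.symm] at happ

/-- In dimension two, a non-scalar endomorphism killed by a monic quadratic has that quadratic
as its characteristic polynomial. -/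
theorem charpoly_eq_of_quadratic_of_not_scalar [FiniteDimensional k V]
    (h2 : finrank k V = 2) (x : Module.End k V) (t δ : k)
    (hx : x * x - t • x + δ • (1 : Module.End k V) = 0) (hns : ∀ c : k, x ≠ c • 1) :
    x.charpoly = X ^ 2 - C t * X + C δ := by
  classical
  have : Nontrivial V := Module.nontrivial_of_finrank_pos (R := k) (by omega)
  set q : k[X] := X ^ 2 - C t * X + C δ with hqdef
  have hqm : q.Monic := by
    rw [hqdef]; monicity!
  have hqd : q.natDegree = 2 := by
    rw [hqdef]; compute_degree!
  have hq0 : aeval x q = 0 := by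
    rw [hqdef]
    simp only [map_add, map_sub, map_mul, map_pow, aeval_X, aeval_C,
      Algebra.algebraMap_eq_smul_one, smul_mul_assoc, one_mul]
    rw [pow_two]
    exact hx
  have hint : IsIntegral k x := Algebra.IsIntegral.isIntegral x
  have hdvd : minpoly k x ∣ q := minpoly.dvd k x hq0
  have hmd : 2 ≤ (minpoly k x).natDegree := by
    have hpos := minpoly.natDegree_pos hint
    have hne1 : (minpoly k x).natDegree ≠ 1 := by
      intro h1
      rw [minpoly.natDegree_eq_one_iff] at h1
      obtain ⟨c, hc⟩ := h1
      exact hns c (by rw [← hc, Algebra.algebraMap_eq_smul_one])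
    omega
  have hmq : q = minpoly k x :=
    Polynomial.eq_of_monic_of_dvd_of_natDegree_le (minpoly.monic hint) hqm hdvd (by omega)
  have hcd : x.charpoly.natDegree = 2 := by rw [LinearMap.charpoly_natDegree, h2]
  have hcm : x.charpoly = minpoly k x :=
    Polynomial.eq_of_monic_of_dvd_of_natDegree_le (minpoly.monic hint) x.charpoly_monic
      (LinearMap.minpoly_dvd_charpoly x) (by omega)
  rw [hcm, ← hmq]

end Fermat.Agent.S29.H92
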