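/-
helper92 — S29 piece P2(c): abstract assembly.

`exists_two_dim_of_quadratic` : let `k` be algebraically closed, `M ≠ 0` a finite-dimensional
representation of `G`, `d : G →* kˣ`, and `R g t` a relation such that every `g` is related to
some `t`, and `R g t` implies `ρ g ^ 2 - t ρ g + d g = 0` on `M`.  Then there is a
TWO-dimensional representation `ρ'` with
  * `charpoly (ρ' g) = X ^ 2 - t X + d g` whenever `R g t`;
  * `ρ g = 1 → d g = 1 → ρ' g = 1` (so `ρ'` is as unramified / as finite-level as `ρ` and `d`).
(`ρ'` is a simple subrepresentation `U` of `M` if `dim U = 2`, and `ψ ⊕ d ψ⁻¹` if `U = ψ` is a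
character.)  Mathlib-only.
-/
import Fermat.Agent.S29.H92.Dim

set_option autoImplicit false

namespace Fermat.Agent.S29.H92

open Module Polynomial

universe u

section Charpoly

variable {k : Type*} [Field k] {V : Type*} [AddCommGroup V] [Module k V]

theorem charpoly_smul_one [FiniteDimensional k V] (c : k) :
    (c • (1 : Module.End k V)).charpoly = (X - C c) ^ finrank k V := by
  have h := LinearMap.charpoly_sub_smul (0 : Module.End k V) (-c)
  rw [LinearMap.charpoly_zero, zero_sub, neg_smul, neg_neg] at h
  rw [h]
  simp [sub_eq_add_neg]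

/-- In dimension two, an endomorphism killed by `X² - tX + δ` has this characteristic
polynomial, provided that in the scalar case `x = c` one has `t = 2c`, `δ = c²`. -/
theorem charpoly_of_quadratic_two [FiniteDimensional k V]
    (h2 : finrank k V = 2) (x : Module.End k V) (t δ : k)
    (hx : x * x - t • x + δ • (1 : Module.End k V) = 0)
    (hsc : ∀ c : k, x = c • 1 → t = 2 * c ∧ δ = c * c) :
    x.charpoly = X ^ 2 - C t * X + C δ := by
  by_cases h : ∃ c : k, x = c • 1
  · obtain ⟨c, rfl⟩ := h
    obtain ⟨rfl, rfl⟩ := hsc c rfl
    rw [charpoly_smul_one, h2]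
    simp only [map_mul, map_ofNat]
    ring
  · exact charpoly_eq_of_quadratic_of_not_scalar h2 x t δ hx fun c hc => h ⟨c, hc⟩

/-- Endomorphisms of a one-dimensional space are scalars (given by the determinant). -/
theorem eq_det_smul_one_of_finrank_eq_one (h1 : finrank k V = 1) (f : Module.End k V) :
    f = LinearMap.det f • (1 : Module.End k V) := by
  classical
  have : Module.Finite k V := Module.finite_of_finrank_pos (by omega)
  let b : Module.Basis (Fin 1) k V := Module.basisUnique (Fin 1) h1
  have hc : f = (b.repr (f (b 0)) 0) • (1 : Module.End k V) := by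
    apply b.ext
    intro i
    have hi : i = 0 := Subsingleton.elim _ _
    subst hi
    have := b.sum_repr (f (b 0))
    simp only [Fin.sum_univ_one] at this
    simp only [LinearMap.smul_apply, Module.End.one_apply]
    exact this.symm
  have hdet : LinearMap.det f = b.repr (f (b 0)) 0 := by
    conv_lhs => rw [hc]
    rw [LinearMap.det_smul, h1, pow_one, map_one, mul_one]
  rw [hdet]
  exact hc

end Charpoly

section Minimal

variable {k : Type*} [Field k] {M : Type*} [AddCommGroup M] [Module k M]
variable {G : Type*} [Monoid G]

/-- A nonzero finite-dimensional representation has a minimal nonzero stable subspace. -/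
theorem exists_minimal_stable [FiniteDimensional k M] [Nontrivial M]
    (ρ : G →* Module.End k M) :
    ∃ U : Submodule k M, U ≠ ⊥ ∧ (∀ g, ∀ u ∈ U, ρ g u ∈ U) ∧
      ∀ W : Submodule k M, W ≤ U → (∀ g, ∀ w ∈ W, ρ g w ∈ W) → W = ⊥ ∨ W = U := by
  classical
  have key : ∀ n : ℕ, ∀ U : Submodule k M, finrank k U = n → U ≠ ⊥ →
      (∀ g, ∀ u ∈ U, ρ g u ∈ U) →
      ∃ U' : Submodule k M, U' ≠ ⊥ ∧ (∀ g, ∀ u ∈ U', ρ g u ∈ U') ∧
        ∀ W : Submodule k M, W ≤ U' → (∀ g, ∀ w ∈ W, ρ g w ∈ W) → W = ⊥ ∨ W = U' := by
    intro n
    induction n using Nat.strong_induction_on with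
    | _ n ih =>
      intro U hn hU0 hUs
      by_cases hmin : ∀ W : Submodule k M, W ≤ U → (∀ g, ∀ w ∈ W, ρ g w ∈ W) → W = ⊥ ∨ W = U
      · exact ⟨U, hU0, hUs, hmin⟩
      · push Not at hmin
        obtain ⟨W, hWU, hWs, hW0, hWne⟩ := hmin
        have hlt : W < U := lt_of_le_of_ne hWU hWne
        have := Submodule.finrank_lt_finrank_of_lt hlt
        exact ih _ (hn ▸ this) W rfl hW0 hWs
  exact key _ ⊤ rfl top_ne_bot fun _ _ _ => Submodule.mem_top

/-- Restriction of a representation to a stable subspace. -/
def restrictRep (ρ : G →* Module.End k M) (U : Submodule k M)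
    (hU : ∀ g, ∀ u ∈ U, ρ g u ∈ U) : G →* Module.End k U where
  toFun g := (ρ g).restrict (hU g)
  map_one' := by
    ext u
    simp
  map_mul' g h := by
    ext u
    simp

@[simp] theorem restrictRep_apply (ρ : G →* Module.End k M) (U : Submodule k M)
    (hU : ∀ g, ∀ u ∈ U, ρ g u ∈ U) (g : G) (u : U) :
    (restrictRep ρ U hU g u : M) = ρ g u := rfl

theorem irredRep_restrictRep (ρ : G →* Module.End k M) (U : Submodule k M)
    (hU : ∀ g, ∀ u ∈ U, ρ g u ∈ U)
    (hmin : ∀ W : Submodule k M, W ≤ U → (∀ g, ∀ w ∈ W, ρ g w ∈ W) → W = ⊥ ∨ W = U) :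
    IrredRep (restrictRep ρ U hU) := by
  intro W' hW'
  have hWs : ∀ g, ∀ w ∈ W'.map U.subtype, ρ g w ∈ W'.map U.subtype := by
    rintro g _ ⟨w, hw, rfl⟩
    exact ⟨restrictRep ρ U hU g w, hW' g w hw, rfl⟩
  rcases hmin (W'.map U.subtype) (Submodule.map_subtype_le U W') hWs with h | h
  · left
    apply Submodule.map_injective_of_injective U.injective_subtype
    rw [h, Submodule.map_bot]
  · right
    apply Submodule.map_injective_of_injective U.injective_subtype
    rw [h, Submodule.map_subtype_top]

end Minimal

section Main

variable {k : Type*} [Field k] [IsAlgClosed k]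
variable {G : Type*} [Monoid G]

/-- **Abstract assembly** (see the file header). -/
theorem exists_two_dim_of_quadratic
    {M : Type u} [AddCommGroup M] [Module k M] [FiniteDimensional k M] [Nontrivial M]
    (ρ : G →* Module.End k M) (d : G →* kˣ) (R : G → k → Prop)
    (hR : ∀ g, ∃ t, R g t)
    (hq : ∀ g t, R g t → ρ g * ρ g - t • ρ g + (d g : k) • (1 : Module.End k M) = 0) :
    ∃ (V : Type u) (_ : AddCommGroup V) (_ : Module k V) (_ : Module.Finite k V)
      (ρ' : G →* Module.End k V),
      finrank k V = 2 ∧
      (∀ g t, R g t → LinearMap.charpoly (ρ' g) = X ^ 2 - C t * X + C (d g : k)) ∧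
      (∀ g, ρ g = 1 → d g = 1 → ρ' g = 1) := by
  classical
  obtain ⟨U, hU0, hUs, hmin⟩ := exists_minimal_stable ρ
  set ρU := restrictRep ρ U hUs with hρU
  have hirr : IrredRep ρU := irredRep_restrictRep ρ U hUs hmin
  -- relations on U
  have hqU : ∀ g t, R g t →
      ρU g * ρU g - t • ρU g + (d g : k) • (1 : Module.End k U) = 0 := by
    intro g t hgt
    ext u
    have := congrArg (fun f : Module.End k M => f (u : M)) (hq g t hgt)
    simpa [hρU] using this
  choose a ha using hR
  have hd : ∀ g h, ((d (g * h) : kˣ) : k) = (d g : k) * (d h : k) := fun g h => by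
    rw [map_mul, Units.val_mul]
  have hd0 : ∀ g, ((d g : kˣ) : k) ≠ 0 := fun g => (d g).ne_zero
  have hle : finrank k U ≤ 2 :=
    finrank_le_two_of_quadratic hirr a (fun g => (d g : k)) hd hd0 fun g => hqU g (a g) (ha g)
  have hpos : 0 < finrank k U := by
    rcases Nat.eq_zero_or_pos (finrank k U) with h | h
    · exact absurd (Submodule.finrank_eq_zero.1 h) hU0
    · exact h
  have : Nontrivial U := Module.nontrivial_of_finrank_pos (R := k) hpos
  have hsmul_inj : ∀ c : k, c • (1 : Module.End k U) = 0 → c = 0 := by
    intro c hc
    obtain ⟨u, hu⟩ := exists_ne (0 : U)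
    have := congrArg (fun f : Module.End k U => f u) hc
    simp only [LinearMap.smul_apply, Module.End.one_apply, LinearMap.zero_apply] at this
    exact (smul_eq_zero.1 this).resolve_right hu
  rcases Nat.lt_or_ge (finrank k U) 2 with h1 | h2
  · -- dimension one: ψ ⊕ d ψ⁻¹
    have h1 : finrank k U = 1 := by omega
    let ψ : G →* k := (LinearMap.det : Module.End k U →* k).comp ρU
    have hψ : ∀ g, ρU g = ψ g • (1 : Module.End k U) := fun g =>
      eq_det_smul_one_of_finrank_eq_one h1 (ρU g)
    -- scalar relation
    have hrel : ∀ g t, R g t → ψ g * ψ g - t * ψ g + (d g : k) = 0 := by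
      intro g t hgt
      apply hsmul_inj
      have := hqU g t hgt
      rw [hψ g] at this
      rw [← this]
      simp only [smul_mul_assoc, mul_smul_comm, one_mul, smul_smul, add_smul, sub_smul]
    have hψ0 : ∀ g, ψ g ≠ 0 := by
      intro g hg
      have := hrel g (a g) (ha g)
      rw [hg] at this
      simp only [mul_zero, sub_zero, zero_add] at this
      exact hd0 g this
    let χ : G →* k :=
      { toFun := fun g => (d g : k) * (ψ g)⁻¹
        map_one' := by simp
        map_mul' := fun g h => by
          simp only [map_mul, Units.val_mul, mul_inv]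
          ring }
    let ρ' : G →* Module.End k (U × U) :=
      { toFun := fun g => LinearMap.prodMap (ρU g) (χ g • (1 : Module.End k U))
        map_one' := by
          simp only [map_one, one_smul]
          exact LinearMap.prodMap_one
        map_mul' := fun g h => by
          simp only [map_mul]
          rw [LinearMap.prodMap_mul]
          congr 1
          simp only [smul_mul_assoc, mul_smul_comm, one_mul, smul_smul]
          rw [mul_comm] }
    refine ⟨U × U, inferInstance, inferInstance, inferInstance, ρ', ?_, ?_, ?_⟩
    · rw [Module.finrank_prod, h1]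
    · intro g t hgt
      show (LinearMap.prodMap (ρU g) (χ g • (1 : Module.End k U))).charpoly = _
      rw [LinearMap.charpoly_prodMap, hψ g, charpoly_smul_one, charpoly_smul_one, h1, pow_one,
        pow_one]
      have hr := hrel g t hgt
      have hχ : χ g = (d g : k) * (ψ g)⁻¹ := rfl
      have ht : t = ψ g + χ g := by
        rw [hχ]
        field_simp [hψ0 g]
        linear_combination -hr
      have hdg : (d g : k) = ψ g * χ g := by
        rw [hχ]
        field_simp [hψ0 g]
      rw [ht, hdg]
      simp only [map_add, map_mul]
      ring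
    · intro g hg hdg
      show LinearMap.prodMap (ρU g) (χ g • (1 : Module.End k U)) = 1
      have hρUg : ρU g = 1 := by
        ext u
        simp [hρU, hg]
      have hψg : ψ g = 1 := by
        show LinearMap.det (ρU g) = 1
        rw [hρUg, map_one]
      have hχg : χ g = 1 := by
        show (d g : k) * (ψ g)⁻¹ = 1
        rw [hψg, hdg]
        simp
      rw [hρUg, hχg, one_smul]
      exact LinearMap.prodMap_one
  · -- dimension two
    have h2 : finrank k U = 2 := by omega
    -- a non-scalar element
    have hns : ∃ h, ∀ c : k, ρU h ≠ c • 1 := by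
      by_contra hcon
      push Not at hcon
      obtain ⟨u, hu⟩ := exists_ne (0 : U)
      have hst : ∀ g, ∀ w ∈ Submodule.span k {u}, ρU g w ∈ Submodule.span k {u} := by
        intro g w hw
        obtain ⟨c, hc⟩ := hcon g
        rw [hc]
        simpa using Submodule.smul_mem _ c hw
      rcases hirr _ hst with h | h
      · exact hu ((Submodule.span_singleton_eq_bot).1 h)
      · have := finrank_span_singleton (K := k) hu
        rw [h, finrank_top, h2] at this
        omega
    obtain ⟨h, hh⟩ := hns
    refine ⟨U, inferInstance, inferInstance, inferInstance, ρU, h2, ?_, ?_⟩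
    · intro g t hgt
      refine charpoly_of_quadratic_two h2 (ρU g) t (d g : k) (hqU g t hgt) ?_
      intro c hc
      -- scalar case
      set y := ρU h with hy
      have hy2 : y * y = a h • y - (d h : k) • (1 : Module.End k U) := by
        have := hqU h (a h) (ha h)
        rw [sub_add, sub_eq_zero] at this
        exact this
      have hgh : ρU (g * h) = c • y := by
        rw [map_mul, hc, smul_mul_assoc, one_mul]
      have hrel2 := hqU (g * h) (a (g * h)) (ha (g * h))
      rw [hgh, hd] at hrel2
      have hlin : (c * c * a h - a (g * h) * c) • y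
          = (c * c * (d h : k) - (d g : k) * (d h : k)) • (1 : Module.End k U) := by
        have e : c • y * (c • y) - a (g * h) • c • y + ((d g : k) * (d h : k)) • (1 : Module.End k U)
            = (c * c * a h - a (g * h) * c) • y
              - (c * c * (d h : k) - (d g : k) * (d h : k)) • (1 : Module.End k U) := by
          simp only [smul_mul_assoc, mul_smul_comm, hy2]
          module
        rw [e, sub_eq_zero] at hrel2
        exact hrel2
      have hα : c * c * a h - a (g * h) * c = 0 := by
        by_contra hα
        apply hh (((c * c * a h - a (g * h) * c))⁻¹ * (c * c * (d h : k) - (d g : k) * (d h : k)))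
        have := congrArg (fun e => (c * c * a h - a (g * h) * c)⁻¹ • e) hlin
        simp only [smul_smul, inv_mul_cancel₀ hα, one_smul] at this
        exact this
      rw [hα, zero_smul] at hlin
      have hβ : c * c * (d h : k) - (d g : k) * (d h : k) = 0 := hsmul_inj _ hlin.symm
      have hdg : (d g : k) = c * c := by
        have : (c * c - (d g : k)) * (d h : k) = 0 := by rw [← hβ]; ring
        rcases mul_eq_zero.1 this with h' | h'
        · exact (sub_eq_zero.1 h').symm
        · exact absurd h' (hd0 h)
      have hc0 : c ≠ 0 := by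
        rintro rfl
        rw [mul_zero] at hdg
        exact hd0 g hdg
      have hrelg := hqU g t hgt
      rw [hc] at hrelg
      have hsc : c * c - t * c + (d g : k) = 0 := by
        apply hsmul_inj
        rw [← hrelg]
        simp only [smul_mul_assoc, mul_smul_comm, one_mul, smul_smul, add_smul, sub_smul]
      refine ⟨?_, hdg⟩
      rw [hdg] at hsc
      have : c * (2 * c - t) = 0 := by rw [← hsc]; ring
      rcases mul_eq_zero.1 this with h' | h'
      · exact absurd h' hc0
      · exact (sub_eq_zero.1 h').symm
    · intro g hg _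
      ext u
      simp [hρU, hg]

end Main

end Fermat.Agent.S29.H92
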