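/-
helper92 — S29 layer M, piece E2-(B) of origin/helper201 PeSkeleton.lean:
`isHeckeImage_heckeHom : M.IsHeckeImage N ℓ χ (heckeHom ℓ hℓN A χ)`   (coset uniqueness).

The layer-M interface `M.IsHeckeImage` uses the integer matrices `M.heckeRep ℓ i`, `i : Fin (ℓ+1)`;
helper201's `heckeHom` uses the Prelude representatives `heckeRep ℓ x`, `x : OnePoint (ZMod ℓ)`,
and the transfer elements `trf`.  We match the two index sets (`idx`), prove that distinct
representatives are inequivalent under `SL(2,ℤ)` (`heckeRep_eq_of_mapGL_mul`) and conclude with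
`trf_unique`.
-/
import Fermat.Agent.S29.H201.Transfer
import Fermat.Agent.S29.M.Defs

set_option autoImplicit false

open CongruenceSubgroup Matrix.SpecialLinearGroup ModularForm
open scoped MatrixGroups
open P2MW.S_ModularForm_heckeT_slash_eq_self_of_mem_Gamma0.ModularForm.HeckeSlashInvariance
open Fermat.Agent.S29.H201

namespace Fermat.Agent.S29.H92

variable {N : ℕ} {ℓ : ℕ} [Fact ℓ.Prime]

/-- The index bijection `Fin (ℓ + 1) → ℙ¹(𝔽_ℓ)`: `i < ℓ ↦ i`, `ℓ ↦ ∞`. -/
noncomputable def idx (ℓ : ℕ) (i : Fin (ℓ + 1)) : OnePoint (ZMod ℓ) :=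
  if (i : ℕ) < ℓ then (((i : ℕ) : ZMod ℓ) : OnePoint (ZMod ℓ)) else OnePoint.infty

theorem idx_injective : Function.Injective (idx ℓ) := by
  intro i i' h
  unfold idx at h
  by_cases hi : (i : ℕ) < ℓ <;> by_cases hi' : (i' : ℕ) < ℓ
  · rw [if_pos hi, if_pos hi'] at h
    have h1 : ((i : ℕ) : ZMod ℓ) = ((i' : ℕ) : ZMod ℓ) := OnePoint.coe_injective h
    have h2 := congrArg ZMod.val h1
    rw [ZMod.val_cast_of_lt hi, ZMod.val_cast_of_lt hi'] at h2
    exact Fin.ext h2
  · rw [if_pos hi, if_neg hi'] at h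
    exact absurd h (OnePoint.coe_ne_infty _)
  · rw [if_neg hi, if_pos hi'] at h
    exact absurd h.symm (OnePoint.coe_ne_infty _)
  · have h1 : (i : ℕ) = ℓ := le_antisymm (Nat.lt_succ_iff.1 i.2) (not_lt.1 hi)
    have h2 : (i' : ℕ) = ℓ := le_antisymm (Nat.lt_succ_iff.1 i'.2) (not_lt.1 hi')
    exact Fin.ext (h1.trans h2.symm)

theorem idx_bijective : Function.Bijective (idx ℓ) := by
  rw [Fintype.bijective_iff_injective_and_card]
  refine ⟨idx_injective, ?_⟩
  have : Fintype.card (OnePoint (ZMod ℓ)) = Fintype.card (Option (ZMod ℓ)) := rfl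
  rw [this, Fintype.card_option, ZMod.card, Fintype.card_fin]

/-- The real matrix of the Prelude representative is the cast of the integer one. -/
theorem val_heckeRep_idx (i : Fin (ℓ + 1)) :
    ((heckeRep ℓ (idx ℓ i) : GL (Fin 2) ℝ) : Matrix (Fin 2) (Fin 2) ℝ)
      = (Fermat.Agent.S29.M.heckeRep ℓ i).map (Int.cast : ℤ → ℝ) := by
  have hℓ : ℓ ≠ 0 := (Fact.out : ℓ.Prime).ne_zero
  unfold idx Fermat.Agent.S29.M.heckeRep
  by_cases hi : (i : ℕ) < ℓ
  · rw [if_pos hi, if_pos hi, heckeRep_coe, ZMod.val_cast_of_lt hi, val_heckeMatrix hℓ]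
    ext a b
    fin_cases a <;> fin_cases b <;> simp
  · rw [if_neg hi, if_neg hi, heckeRep_infty, val_heckeDiagMatrix hℓ]
    ext a b
    fin_cases a <;> fin_cases b <;> simp

theorem val_mapGL (g : SL(2, ℤ)) :
    ((mapGL ℝ g : GL (Fin 2) ℝ) : Matrix (Fin 2) (Fin 2) ℝ)
      = (g : Matrix (Fin 2) (Fin 2) ℤ).map (Int.cast : ℤ → ℝ) := by
  ext a b
  simp [mapGL]

theorem mul_fin_two_entries (g : Matrix (Fin 2) (Fin 2) ℝ) (a b c d : ℝ) :
    g * !![a, b; c, d] = !![g 0 0 * a + g 0 1 * c, g 0 0 * b + g 0 1 * d;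
      g 1 0 * a + g 1 1 * c, g 1 0 * b + g 1 1 * d] := by
  ext i j
  fin_cases i <;> fin_cases j <;> simp [Matrix.mul_apply, Fin.sum_univ_two]

theorem fin_two_eq_iff {a b c d a' b' c' d' : ℝ} :
    !![a, b; c, d] = !![a', b'; c', d'] ↔ a = a' ∧ b = b' ∧ c = c' ∧ d = d' := by
  constructor
  · intro h
    exact ⟨by simpa using congrFun (congrFun h 0) 0, by simpa using congrFun (congrFun h 0) 1,
      by simpa using congrFun (congrFun h 1) 0, by simpa using congrFun (congrFun h 1) 1⟩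
  · rintro ⟨rfl, rfl, rfl, rfl⟩
    rfl

/-- Distinct Prelude representatives are inequivalent under left multiplication by `SL(2,ℤ)`. -/
theorem heckeRep_eq_of_mapGL_mul (g : SL(2, ℤ)) (x y : OnePoint (ZMod ℓ))
    (h : mapGL ℝ g * heckeRep ℓ y = heckeRep ℓ x) : x = y := by
  have hℓ : ℓ ≠ 0 := (Fact.out : ℓ.Prime).ne_zero
  have hℓ2 : 2 ≤ ℓ := (Fact.out : ℓ.Prime).two_le
  have hm := congrArg (fun u : GL (Fin 2) ℝ => (u : Matrix (Fin 2) (Fin 2) ℝ)) h
  simp only [Matrix.GeneralLinearGroup.coe_mul, val_mapGL] at hm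
  have hunit : ∀ z : ℤ, z * (ℓ : ℤ) ≠ 1 := by
    intro z hz
    have hdvd : (ℓ : ℤ) ∣ 1 := ⟨z, by rw [← hz]; ring⟩
    have := Int.le_of_dvd one_pos hdvd
    omega
  induction x using OnePoint.rec with
  | infty =>
    induction y using OnePoint.rec with
    | infty => rfl
    | coe j =>
      exfalso
      rw [heckeRep_coe, heckeRep_infty, val_heckeMatrix hℓ, val_heckeDiagMatrix hℓ,
        mul_fin_two_entries, fin_two_eq_iff] at hm
      obtain ⟨-, -, h10, h11⟩ := hm
      simp only [Matrix.map_apply, mul_one, mul_zero, add_zero] at h10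
      simp only [Matrix.map_apply, h10, zero_mul, zero_add] at h11
      exact hunit (g 1 1) (by exact_mod_cast h11)
  | coe j' =>
    induction y using OnePoint.rec with
    | infty =>
      exfalso
      rw [heckeRep_coe, heckeRep_infty, val_heckeMatrix hℓ, val_heckeDiagMatrix hℓ,
        mul_fin_two_entries, fin_two_eq_iff] at hm
      obtain ⟨h00, -, -, -⟩ := hm
      simp only [Matrix.map_apply, mul_zero, add_zero] at h00
      exact hunit (g 0 0) (by exact_mod_cast h00)
    | coe j =>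
      rw [heckeRep_coe, heckeRep_coe, val_heckeMatrix hℓ, val_heckeMatrix hℓ,
        mul_fin_two_entries, fin_two_eq_iff] at hm
      obtain ⟨h00, h01, -, -⟩ := hm
      simp only [Matrix.map_apply, mul_one, mul_zero, add_zero] at h00
      simp only [Matrix.map_apply, h00, one_mul] at h01
      have hz : ((j.val : ℤ)) + g 0 1 * (ℓ : ℤ) = (j'.val : ℤ) := by exact_mod_cast h01
      have hmod := congrArg (Int.cast : ℤ → ZMod ℓ) hz
      push_cast at hmod
      rw [ZMod.natCast_zmod_val, ZMod.natCast_zmod_val, ZMod.natCast_self, mul_zero,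
        add_zero] at hmod
      rw [hmod]

/-- **(B) coset uniqueness**: helper201's `heckeHom` satisfies the layer-M transfer formula. -/
theorem isHeckeImage_heckeHom (hℓN : ¬ ℓ ∣ N) {A : Type*} [AddCommGroup A]
    (χ : Additive (Gamma0 N) →+ A) :
    Fermat.Agent.S29.M.IsHeckeImage N ℓ χ (heckeHom ℓ hℓN A χ) := by
  intro γ π δ hδ
  -- the GL-equation for each index
  have hGL : ∀ i, heckeRep ℓ (idx ℓ i) * mapGL ℝ (γ : SL(2, ℤ))
      = mapGL ℝ ((δ i : Gamma0 N) : SL(2, ℤ)) * heckeRep ℓ (idx ℓ (π i)) := by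
    intro i
    apply Matrix.GeneralLinearGroup.ext
    intro a b
    have h1 := congrArg (fun M : Matrix (Fin 2) (Fin 2) ℤ => M.map (Int.cast : ℤ → ℝ)) (hδ i)
    simp only [Matrix.map_mul_intCast] at h1
    rw [Matrix.GeneralLinearGroup.coe_mul, Matrix.GeneralLinearGroup.coe_mul, val_heckeRep_idx,
      val_heckeRep_idx, val_mapGL, val_mapGL]
    exact congrFun (congrFun h1 a) b
  -- the permutation is the Prelude one
  have hπ : ∀ i, idx ℓ (π i) = redMatrix ℓ (γ : SL(2, ℤ)) • idx ℓ i := by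
    intro i
    have h1 := trf_spec hℓN γ (idx ℓ i)
    rw [hGL i] at h1
    -- (trf)⁻¹ δ_i · rep (idx (π i)) = rep (red • idx i)
    have h2 : mapGL ℝ (((trf hℓN γ (idx ℓ i) : Gamma0 N) : SL(2, ℤ))⁻¹
          * ((δ i : Gamma0 N) : SL(2, ℤ))) * heckeRep ℓ (idx ℓ (π i))
        = heckeRep ℓ (redMatrix ℓ (γ : SL(2, ℤ)) • idx ℓ i) := by
      rw [map_mul, map_inv, mul_assoc, h1, ← mul_assoc, inv_mul_cancel, one_mul]
    exact (heckeRep_eq_of_mapGL_mul _ _ _ h2).symm
  have hδt : ∀ i, δ i = trf hℓN γ (idx ℓ i) := by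
    intro i
    apply trf_unique
    rw [← hπ i]
    exact hGL i
  rw [heckeHom_apply]
  rw [← Function.Bijective.sum_comp (idx_bijective (ℓ := ℓ))
    (fun x => χ (Additive.ofMul (trf hℓN γ x)))]
  refine Finset.sum_congr rfl fun i _ => ?_
  rw [hδt i]

end Fermat.Agent.S29.H92
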