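/-
helper92 — S29 layer A assembly from a WEAK density input.

`FrobPowerStatement` : every `σ ∈ G_ℚ` agrees, on any finite `E ⊂ ℚ̄`, with a POWER `τ ^ j` of a
Frobenius element `τ` at some prime `ℓ ∤ S`.  It follows both from the exact qualitative
Chebotarev statement (`ChebStatement`, `j = 1`) and from the Tier-1 statement of the shared
library CHEB (`Lib.Cheb.Spec.FrobeniusDivisionStatement`, Frobenius' density theorem).

`hasAttachedRep_of_frobPower` : layer A of the S29 skeleton (piece `Asm`) from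
`FrobPowerStatement`, with the pieces `Cyc` and `Orb` as explicit hypotheses.
So S29 needs only TIER 1 of CHEB.

Key algebra (`pow_quadratic`): if `T² - aT + δ = 0` then `T^j` satisfies
`X² - a'X + δ^j` for some `a'` (over an algebraically closed field).
-/
import Fermat.Agent.S29.Defs
import Fermat.Agent.S29.Alg
import Fermat.Agent.Lib.Cheb.Spec

set_option autoImplicit false

namespace Fermat.Agent.S29.H92

open Polynomial Fermat.Agent.S29

/-- Weak density input: on every finite `E`, `σ` is a power of a Frobenius at some `ℓ ∤ S`. -/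
def FrobPowerStatement : Prop :=
  ∀ (E : IntermediateField ℚ (AlgebraicClosure ℚ)), FiniteDimensional ℚ E →
    ∀ (σ : GQ) (S : ℕ), S ≠ 0 →
      ∃ (ℓ : ℕ) (A : VQ) (τ : GQ) (j : ℕ), ℓ.Prime ∧ ¬ ℓ ∣ S ∧ A.LiesOverPrime ℓ ∧
        A.IsFrobeniusAt τ ℓ ∧ ∀ x ∈ E, (τ ^ j) x = σ x

theorem frobPower_of_cheb (h : ChebStatement) : FrobPowerStatement := by
  intro E hE σ S hS
  obtain ⟨ℓ, A, τ, h1, h2, h3, h4, h5⟩ := h E hE σ S hS
  exact ⟨ℓ, A, τ, 1, h1, h2, h3, h4, by simpa using h5⟩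

theorem frobPower_of_frobeniusDivision
    (h : Fermat.Agent.Lib.Cheb.Spec.FrobeniusDivisionStatement) : FrobPowerStatement := by
  intro E hE σ S hS
  obtain ⟨ℓ, A, τ, k, j, h1, h2, h3, h4, -, -, h7⟩ := h E hE σ S.primeFactors
  exact ⟨ℓ, A, τ, j, h1, fun hdvd => h2 (Nat.mem_primeFactors.2 ⟨h1, hdvd, hS⟩), h3, h4, h7⟩

theorem frobPower_of_chebotarev
    (h : Fermat.Agent.Lib.Cheb.Spec.ChebotarevStatement) : FrobPowerStatement := by
  intro E hE σ S hS
  obtain ⟨ℓ, A, τ, h1, h2, h3, h4, -, h7⟩ := h E hE σ S.primeFactors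
  exact ⟨ℓ, A, τ, 1, h1, fun hdvd => h2 (Nat.mem_primeFactors.2 ⟨h1, hdvd, hS⟩), h3, h4,
    by simpa using h7⟩

/-- The statement of piece `Cyc` of the skeleton, as a `Prop`. -/
def CycProp : Prop :=
  ∀ (F : Type) [Field F] (p : ℕ), p.Prime → [CharP F p] →
    ∃ χ : GQ →* Fˣ,
      (∃ L : IntermediateField ℚ (AlgebraicClosure ℚ), FiniteDimensional ℚ L ∧
        ∀ σ : GQ, (∀ y ∈ L, σ y = y) → χ σ = 1) ∧
      (∀ ℓ : ℕ, ℓ.Prime → ℓ ≠ p → ∀ A : VQ, A.LiesOverPrime ℓ →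
        ∀ σ : GQ, A.IsFrobeniusAt σ ℓ → ((χ σ : Fˣ) : F) = (ℓ : F)) ∧
      (∀ ℓ : ℕ, ℓ.Prime → ℓ ≠ p → ∀ A : VQ, A.LiesOverPrime ℓ →
        ∀ σ ∈ A.inertiaSubgroupIn ℚ, χ σ = 1)

/-- The statement of piece `Orb` of the skeleton, as a `Prop`. -/
def OrbProp : Prop :=
  ∀ (F : Type) [Field F] (M : Type) [AddCommGroup M] [Module F M] [Nontrivial M]
    (ρ : GQ →* Module.End F M), IsSmoothRep ρ →
    ∃ W : Submodule F M, W ≠ ⊥ ∧ Module.Finite F W ∧ (∀ σ : GQ, ∀ x ∈ W, ρ σ x ∈ W) ∧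
      ∃ L : IntermediateField ℚ (AlgebraicClosure ℚ), FiniteDimensional ℚ L ∧
        ∀ σ : GQ, (∀ y ∈ L, σ y = y) → ∀ x ∈ W, ρ σ x = x

/-- If `T` is killed by `X² - aX + δ` then `T ^ j` is killed by `X² - a'X + δ ^ j` for a
suitable `a'`. -/
theorem pow_quadratic {F : Type*} [Field F] [IsAlgClosed F] {R : Type*} [Ring R] [Algebra F R]
    (T : R) (a δ : F) (h : T * T - a • T + δ • (1 : R) = 0) (j : ℕ) :
    ∃ a' : F, T ^ j * T ^ j - a' • T ^ j + (δ ^ j) • (1 : R) = 0 := by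
  have hdeg : (X ^ 2 - C a * X + C δ : F[X]).degree ≠ 0 := by
    have : (X ^ 2 - C a * X + C δ : F[X]).natDegree = 2 := by compute_degree!
    intro h0
    have := Polynomial.natDegree_eq_of_degree_eq_some (n := 0) (by simpa using h0)
    omega
  obtain ⟨α, hα⟩ := IsAlgClosed.exists_root (X ^ 2 - C a * X + C δ : F[X]) hdeg
  have hα' : α ^ 2 - a * α + δ = 0 := by
    simpa [IsRoot, eval_add, eval_sub, eval_mul, eval_pow] using hα
  set β := a - α with hβ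
  have hsum : α + β = a := by rw [hβ]; ring
  have hprod : α * β = δ := by rw [hβ]; linear_combination -hα'
  refine ⟨α ^ j + β ^ j, ?_⟩
  have hq : (X ^ 2 - C a * X + C δ : F[X]) = (X - C α) * (X - C β) := by
    rw [← hsum, ← hprod]
    simp only [map_add, map_mul]
    ring
  have h1 : (X - C α : F[X]) ∣ X ^ j - C (α ^ j) := by
    rw [map_pow]; exact sub_dvd_pow_sub_pow _ _ _
  have h2 : (X - C β : F[X]) ∣ X ^ j - C (β ^ j) := by
    rw [map_pow]; exact sub_dvd_pow_sub_pow _ _ _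
  have hdvd : (X ^ 2 - C a * X + C δ : F[X]) ∣ (X ^ j - C (α ^ j)) * (X ^ j - C (β ^ j)) := by
    rw [hq]; exact mul_dvd_mul h1 h2
  have hT : aeval T (X ^ 2 - C a * X + C δ : F[X]) = 0 := by
    simp only [map_add, map_sub, map_mul, map_pow, aeval_X, aeval_C,
      Algebra.algebraMap_eq_smul_one, smul_mul_assoc, one_mul]
    rw [pow_two]
    exact h
  obtain ⟨c, hc⟩ := hdvd
  have h3 : aeval T ((X ^ j - C (α ^ j)) * (X ^ j - C (β ^ j)) : F[X]) = 0 := by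
    rw [hc, map_mul, hT, zero_mul]
  have h4 : ((X ^ j - C (α ^ j)) * (X ^ j - C (β ^ j)) : F[X])
      = X ^ j * X ^ j - C (α ^ j + β ^ j) * X ^ j + C (δ ^ j) := by
    rw [← hprod, mul_pow]
    simp only [map_add, map_mul, map_pow]
    ring
  rw [h4] at h3
  have h5 : ∀ c1 c2 : F, aeval T (X ^ j * X ^ j - C c1 * X ^ j + C c2 : F[X])
      = T ^ j * T ^ j - c1 • T ^ j + c2 • (1 : R) := by
    intro c1 c2
    simp only [map_add, map_sub, map_mul, map_pow, aeval_X, aeval_C,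
      Algebra.algebraMap_eq_smul_one, smul_mul_assoc, one_mul]
  rw [h5] at h3
  exact h3

/-- Elements of `G_ℚ` agreeing on `E` have the same image under a homomorphism which is trivial
on the pointwise stabiliser of `E`. -/
theorem map_eq_of_agree {H : Type*} [Monoid H] (f : GQ →* H)
    (E : IntermediateField ℚ (AlgebraicClosure ℚ))
    (hE : ∀ σ : GQ, (∀ y ∈ E, σ y = y) → f σ = 1) {σ τ : GQ}
    (hστ : ∀ x ∈ E, τ x = σ x) : f τ = f σ := by
  have h1 : f (σ⁻¹ * τ) = 1 := by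
    apply hE
    intro y hy
    rw [AlgEquiv.mul_apply, hστ y hy]
    exact σ.symm_apply_apply y
  have : τ = σ * (σ⁻¹ * τ) := by group
  rw [this, map_mul, h1, mul_one]

/-- **Layer A from the weak density input.** -/
theorem hasAttachedRep_of_frobPower (hcyc : CycProp) (horb : OrbProp)
    (hfp : FrobPowerStatement) {F : Type} [Field F]
    [IsAlgClosed F] {p : ℕ} (hp : p.Prime) [CharP F p] {S : ℕ} (hS0 : S ≠ 0) (hpS : p ∣ S)
    (a : ℕ → F) (h : HasFrobModule F S a) : HasAttachedRep F S a := by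
  classical
  obtain ⟨M, iA, iM, ρ, hnt, hsm, hur, hfq⟩ := h
  obtain ⟨W, hW0, hWfin, hWs, L, hLfin, hL⟩ := horb F M ρ hsm
  obtain ⟨χ, ⟨Lχ, hLχfin, hLχ⟩, hχF, hχI⟩ := hcyc F p hp
  have hne : ∀ ℓ : ℕ, ℓ.Prime → ¬ ℓ ∣ S → ℓ ≠ p := by
    rintro ℓ - hℓS rfl
    exact hℓS hpS
  have : Nontrivial W := (Submodule.nontrivial_iff_ne_bot).2 hW0
  set ρW : GQ →* Module.End F W := restrictRep ρ W hWs with hρW
  have hρW1 : ∀ σ : GQ, (∀ x ∈ W, ρ σ x = x) → ρW σ = 1 := by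
    intro σ hσ
    ext x
    exact hσ x x.2
  -- the compositum
  let E : IntermediateField ℚ (AlgebraicClosure ℚ) := L ⊔ Lχ
  have : FiniteDimensional ℚ E := IntermediateField.finiteDimensional_sup L Lχ
  have hEρ : ∀ σ : GQ, (∀ y ∈ E, σ y = y) → ρW σ = 1 := fun σ hσ =>
    hρW1 σ (hL σ fun y hy => hσ y ((le_sup_left : L ≤ E) hy))
  have hEχ : ∀ σ : GQ, (∀ y ∈ E, σ y = y) → χ σ = 1 := fun σ hσ =>
    hLχ σ fun y hy => hσ y ((le_sup_right : Lχ ≤ E) hy)
  -- Frobenius relation on W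
  have hfrobW : ∀ ℓ : ℕ, ℓ.Prime → ¬ ℓ ∣ S → ∀ A : VQ, A.LiesOverPrime ℓ →
      ∀ σ : GQ, A.IsFrobeniusAt σ ℓ →
        ρW σ * ρW σ - a ℓ • ρW σ + ((χ σ : Fˣ) : F) • (1 : Module.End F W) = 0 := by
    intro ℓ hℓ hℓS A hA σ hσ
    rw [hχF ℓ hℓ (hne ℓ hℓ hℓS) A hA σ hσ]
    ext x
    have := congrArg (fun f : Module.End F M => f (x : M)) (hfq ℓ hℓ hℓS A hA σ hσ)
    simpa [hρW] using this
  -- every element satisfies a quadratic relation
  have hex : ∀ g : GQ, ∃ a' : F,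
      ρW g * ρW g - a' • ρW g + ((χ g : Fˣ) : F) • (1 : Module.End F W) = 0 := by
    intro g
    obtain ⟨ℓ, A, τ, j, hℓ, hℓS, hA, hτ, hag⟩ := hfp E inferInstance g S hS0
    have h1 : ρW g = ρW τ ^ j := by
      rw [← map_pow]
      exact (map_eq_of_agree ρW E hEρ hag).symm
    have h2 : χ g = χ τ ^ j := by
      rw [← map_pow]
      exact (map_eq_of_agree χ E hEχ hag).symm
    obtain ⟨a', ha'⟩ := pow_quadratic (ρW τ) (a ℓ) ((χ τ : Fˣ) : F) (hfrobW ℓ hℓ hℓS A hA τ hτ) j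
    refine ⟨a', ?_⟩
    rw [h1, h2, Units.val_pow_eq_pow_val]
    exact ha'
  obtain ⟨r, hr1, hr2⟩ := _root_.Fermat.Agent.S29.exists_two_dim_of_quadratic ρW χ hex
  refine ⟨{ V := Fin 2 → F
            finrank_eq := by simp
            ρ := r
            factorsThroughFiniteLevel := ⟨E, inferInstance, fun σ hσ =>
              hr1 σ (hEρ σ hσ) (hEχ σ hσ)⟩ }, ?_, ?_⟩
  · intro ℓ hℓ hℓS A hA σ hσ
    have := hr2 σ (a ℓ) (hfrobW ℓ hℓ hℓS A hA σ hσ)
    rw [hχF ℓ hℓ (hne ℓ hℓ hℓS) A hA σ hσ] at this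
    exact this
  · intro ℓ hℓ hℓS A hA σ hσ
    refine hr1 σ (hρW1 σ fun x _ => ?_) (hχI ℓ hℓ (hne ℓ hℓ hℓS) A hA σ hσ)
    rw [hur ℓ hℓ hℓS A hA σ hσ]
    rfl

/-- Layer A from Tier 1 of the shared library CHEB (Frobenius' density theorem). -/
theorem hasAttachedRep_of_frobeniusDivision (hcyc : CycProp) (horb : OrbProp)
    (hfd : Fermat.Agent.Lib.Cheb.Spec.FrobeniusDivisionStatement) {F : Type} [Field F]
    [IsAlgClosed F] {p : ℕ} (hp : p.Prime) [CharP F p] {S : ℕ} (hS0 : S ≠ 0) (hpS : p ∣ S)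
    (a : ℕ → F) (h : HasFrobModule F S a) : HasAttachedRep F S a :=
  hasAttachedRep_of_frobPower hcyc horb (frobPower_of_frobeniusDivision hfd) hp hS0 hpS a h

/-- Piece `Asm` of the skeleton (exact qualitative Chebotarev as input), from `Cyc` and `Orb`. -/
theorem hasAttachedRep_of_cheb (hcyc : CycProp) (horb : OrbProp)
    (hcheb : ChebStatement) {F : Type} [Field F]
    [IsAlgClosed F] {p : ℕ} (hp : p.Prime) [CharP F p] {S : ℕ} (hS0 : S ≠ 0) (hpS : p ∣ S)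
    (a : ℕ → F) (h : HasFrobModule F S a) : HasAttachedRep F S a :=
  hasAttachedRep_of_frobPower hcyc horb (frobPower_of_cheb hcheb) hp hS0 hpS a h

end Fermat.Agent.S29.H92
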