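/-
helper92 — S29 / P5-E2, piece E2-alg (Lattice.lean of origin/helper201, exact statements):
`isIntegral_of_mul_mem`, `exists_eigen_functional`.

Proof of the second: `M := ℤ̄ · L ⊂ ℂ` is a nonzero finitely generated torsion-free `ℤ̄`-module,
`𝔪 := ker ψ` is a maximal ideal (a domain integral over `𝔽_q` is a field), Nakayama gives
`𝔪 M ≠ M`, pick a nonzero `ℤ̄/𝔪`-linear functional on `M / 𝔪 M` and compose with `ℤ̄/𝔪 ↪ F`.
(The multiplier ring is not needed; the statement holds for all `a ∈ ℤ̄`, `x ∈ L`, `a x ∈ L`.)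
-/
import Mathlib

set_option autoImplicit false

namespace Fermat.Agent.S29.H92

open scoped Pointwise

/-- multipliers of a nonzero f.g. subgroup of `ℂ` are algebraic integers -/
theorem isIntegral_of_mul_mem' (L : AddSubgroup ℂ) (hL : L.FG) (hL0 : L ≠ ⊥) (a : ℂ)
    (ha : ∀ x ∈ L, a * x ∈ L) : IsIntegral ℤ a := by
  refine isIntegral_of_smul_mem_submodule (AddSubgroup.toIntSubmodule L) ?_ ?_ a ?_
  · intro h
    apply hL0
    have := congrArg Submodule.toAddSubgroup h
    simpa using this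
  · rw [Submodule.fg_iff_addSubgroup_fg]
    simpa using hL
  · intro n hn
    exact ha n hn

/-- The kernel of a ring hom from `ℤ̄` to a field of positive characteristic is maximal. -/
theorem ker_isMaximal_of_charP {F : Type*} [Field F] (q : ℕ) [Fact q.Prime] [CharP F q]
    (ψ : integralClosure ℤ ℂ →+* F) : (RingHom.ker ψ).IsMaximal := by
  have hprime : (RingHom.ker ψ).IsPrime := RingHom.ker_isPrime ψ
  rw [Ideal.Quotient.maximal_ideal_iff_isField_quotient]
  -- the quotient has characteristic q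
  haveI : CharP (integralClosure ℤ ℂ ⧸ RingHom.ker ψ) q := by
    have hinj : Function.Injective (RingHom.kerLift ψ) := RingHom.kerLift_injective ψ
    exact RingHom.charP (RingHom.kerLift ψ) hinj q
  letI : Algebra (ZMod q) (integralClosure ℤ ℂ ⧸ RingHom.ker ψ) := ZMod.algebra _ q
  haveI : Algebra.IsIntegral (ZMod q) (integralClosure ℤ ℂ ⧸ RingHom.ker ψ) := by
    refine ⟨fun x => ?_⟩
    obtain ⟨y, rfl⟩ := Ideal.Quotient.mk_surjective x
    have hy : IsIntegral ℤ y := by
      have := y.2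
      exact (isIntegral_algebraMap_iff (A := integralClosure ℤ ℂ) (B := ℂ)
        Subtype.val_injective).1 this
    have h1 : IsIntegral ℤ (Ideal.Quotient.mk (RingHom.ker ψ) y) := hy.map (Ideal.Quotient.mkₐ ℤ _)
    exact h1.tower_top
  exact isField_of_isIntegral_of_isField' (ZMod.instField q).toIsField

/-- **E2-alg** (Nakayama) -/
theorem exists_eigen_functional' (L : AddSubgroup ℂ) (hL : L.FG) (hL0 : L ≠ ⊥)
    {F : Type*} [Field F] (q : ℕ) [Fact q.Prime] [CharP F q]
    (ψ : integralClosure ℤ ℂ →+* F) :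
    ∃ μ : L →+ F, μ ≠ 0 ∧
      ∀ a : integralClosure ℤ ℂ, ∀ x : L, ∀ h : (a : ℂ) * (x : ℂ) ∈ L,
        μ ⟨(a : ℂ) * (x : ℂ), h⟩ = ψ a * μ x := by
  classical
  set 𝔪 := RingHom.ker ψ with h𝔪
  haveI hmax : 𝔪.IsMaximal := ker_isMaximal_of_charP q ψ
  letI : Field (integralClosure ℤ ℂ ⧸ 𝔪) := Ideal.Quotient.field 𝔪
  -- the ℤ̄-span of L
  let M : Submodule (integralClosure ℤ ℂ) ℂ := Submodule.span _ (L : Set ℂ)
  have hLM : ∀ x : L, (x : ℂ) ∈ M := fun x => Submodule.subset_span x.2
  have hMfg : M.FG := by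
    obtain ⟨S, hS⟩ := hL
    refine ⟨S, le_antisymm (Submodule.span_mono ?_) (Submodule.span_le.2 ?_)⟩
    · rw [← hS]; exact AddSubgroup.subset_closure
    · intro x hx
      have hx' : x ∈ AddSubgroup.closure (S : Set ℂ) := by rw [hS]; exact hx
      have hle : AddSubgroup.closure (S : Set ℂ)
          ≤ (Submodule.span (integralClosure ℤ ℂ) (S : Set ℂ)).toAddSubgroup :=
        (AddSubgroup.closure_le _).2 Submodule.subset_span
      exact hle hx'
  haveI : Module.Finite (integralClosure ℤ ℂ) M := Module.Finite.of_fg hMfg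
  -- Nakayama
  have hne : (𝔪 • (⊤ : Submodule (integralClosure ℤ ℂ) M)) ≠ ⊤ := by
    intro htop
    obtain ⟨r, hr1, hr0⟩ := Submodule.exists_sub_one_mem_and_smul_eq_zero_of_fg_of_le_smul 𝔪
      (⊤ : Submodule (integralClosure ℤ ℂ) M) Module.Finite.fg_top (le_of_eq htop.symm)
    obtain ⟨x, hxL, hx0⟩ : ∃ x ∈ L, x ≠ 0 := by
      by_contra hcon
      apply hL0
      rw [eq_bot_iff]
      intro x hx
      by_contra hx0
      exact hcon ⟨x, hx, fun h => hx0 (by simpa using h)⟩
    have h0 := hr0 ⟨x, hLM ⟨x, hxL⟩⟩ Submodule.mem_top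
    have h1 : (r : ℂ) * x = 0 := by
      have := congrArg Subtype.val h0
      simpa [Algebra.smul_def] using this
    have hr : r = 0 := by
      rcases mul_eq_zero.1 h1 with h | h
      · exact Subtype.ext h
      · exact absurd h hx0
    rw [hr, zero_sub] at hr1
    have : (1 : integralClosure ℤ ℂ) ∈ 𝔪 := by simpa using 𝔪.neg_mem hr1
    exact hmax.ne_top ((Ideal.eq_top_iff_one _).2 this)
  -- a nonzero vector of the quotient
  let Q := M ⧸ (𝔪 • (⊤ : Submodule (integralClosure ℤ ℂ) M))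
  obtain ⟨v, hv⟩ : ∃ v : Q, v ≠ 0 := by
    haveI : Nontrivial Q := Submodule.Quotient.nontrivial_iff.2 hne
    exact exists_ne 0
  obtain ⟨f, hf⟩ : ∃ f : Module.Dual (integralClosure ℤ ℂ ⧸ 𝔪) Q, f v ≠ 0 := by
    by_contra hcon
    exact hv ((Module.forall_dual_apply_eq_zero_iff (integralClosure ℤ ℂ ⧸ 𝔪) v).1
      fun f => not_not.1 fun hf => hcon ⟨f, hf⟩)
  -- the semilinear functional on M
  let μM : M →+ F :=
    ((RingHom.kerLift ψ).toAddMonoidHom.comp f.toAddMonoidHom).comp
      (Submodule.mkQ (𝔪 • (⊤ : Submodule (integralClosure ℤ ℂ) M))).toAddMonoidHom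
  have hμM : ∀ (a : integralClosure ℤ ℂ) (y : M), μM (a • y) = ψ a * μM y := by
    intro a y
    show RingHom.kerLift ψ (f (Submodule.Quotient.mk (a • y))) =
      ψ a * RingHom.kerLift ψ (f (Submodule.Quotient.mk y))
    have h1 : (Submodule.Quotient.mk (a • y) : Q)
        = Ideal.Quotient.mk 𝔪 a • (Submodule.Quotient.mk y : Q) := rfl
    rw [h1, map_smul, smul_eq_mul, map_mul]
    rfl
  let incl : L →+ M :=
    { toFun := fun x => ⟨x, hLM x⟩
      map_zero' := rfl
      map_add' := fun _ _ => rfl }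
  refine ⟨μM.comp incl, ?_, ?_⟩
  · intro h0
    -- μM vanishes on L, hence on M, hence f = 0
    have hvan : ∀ y : M, μM y = 0 := by
      rintro ⟨y, hy⟩
      induction hy using Submodule.span_induction with
      | mem x hx =>
        have := DFunLike.congr_fun h0 ⟨x, hx⟩
        simpa [incl] using this
      | zero => exact map_zero μM
      | add x y hx hy h1 h2 =>
        have : (⟨x + y, Submodule.add_mem _ hx hy⟩ : M) = ⟨x, hx⟩ + ⟨y, hy⟩ := rfl
        rw [this, map_add, h1, h2, add_zero]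
      | smul a x hx h1 =>
        have : (⟨a • x, Submodule.smul_mem _ a hx⟩ : M) = a • ⟨x, hx⟩ := rfl
        rw [this, hμM, h1, mul_zero]
    obtain ⟨y, rfl⟩ := Submodule.Quotient.mk_surjective _ v
    have := hvan y
    have h2 : RingHom.kerLift ψ (f (Submodule.Quotient.mk y)) = 0 := this
    exact hf ((map_eq_zero_iff _ (RingHom.kerLift_injective ψ)).1 h2)
  · intro a x h
    have : (⟨(a : ℂ) * (x : ℂ), hLM ⟨_, h⟩⟩ : M) = a • (⟨x, hLM x⟩ : M) := by
      apply Subtype.ext
      simp [Algebra.smul_def]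
    show μM ⟨(a : ℂ) * (x : ℂ), _⟩ = ψ a * μM ⟨x, _⟩
    rw [this, hμM]

end Fermat.Agent.S29.H92
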